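import Mathlib
import Fermat.Prelude.Def_AlgebraicCurve_CanonicalDivisor
import Fermat.Agent.S24.FF.Ord

set_option autoImplicit false

namespace Fermat.Agent.S24.DiffN

open AlgebraicCurve KaehlerDifferential

variable {K F : Type*} [Field K] [Field F] [Algebra K F] (v : Place K F)

/-- The differentials of the elements of the valuation ring of `v` lie in a finitely generated
`O_v`-submodule of `Ω[F⁄K]`. -/
def BoundedDiff : Prop :=
  ∃ s : Finset Ω[F⁄K], ∀ y : v.toValuationSubring,
    D K F (y : F) ∈ Submodule.span v.toValuationSubring (s : Set Ω[F⁄K])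

/-- The residue field of `v` is the constant field. -/
def ResidueTrivial : Prop :=
  ∀ a : v.toValuationSubring, ∃ c : K,
    a - algebraMap K v.toValuationSubring c ∈ IsLocalRing.maximalIdeal v.toValuationSubring

theorem dCoord_spec :
    ∃ π₀ : v.toValuationSubring, Irreducible π₀ ∧ v.dCoord = D K F (π₀ : F) :=
  ⟨_, (IsDiscreteValuationRing.exists_irreducible v.toValuationSubring).choose_spec, rfl⟩

theorem coe_smul_eq (a : v.toValuationSubring) (ω : Ω[F⁄K]) : a • ω = (a : F) • ω :=
  (algebraMap_smul F a ω).symm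

/-- Nakayama: the differential of an element of `O_v` is an `O_v`-multiple of `dπ`. -/
theorem exists_coeff_of_mem (hres : ResidueTrivial v) (hfg : BoundedDiff v)
    {π : v.toValuationSubring} (hπ : Irreducible π) (y : v.toValuationSubring) :
    ∃ a : v.toValuationSubring, D K F (y : F) = (a : F) • D K F (π : F) := by
  classical
  obtain ⟨s, hs⟩ := hfg
  let W : Submodule v.toValuationSubring Ω[F⁄K] :=
    Submodule.span v.toValuationSubring (Set.range fun y : v.toValuationSubring => D K F (y : F))
  have hle : W ≤ Submodule.span v.toValuationSubring (s : Set Ω[F⁄K]) :=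
    Submodule.span_le.mpr (by rintro _ ⟨y, rfl⟩; exact hs y)
  have hWfg : W.FG := by
    have : IsNoetherian v.toValuationSubring
        (Submodule.span v.toValuationSubring (s : Set Ω[F⁄K])) :=
      isNoetherian_span_of_finite _ s.finite_toSet
    have : IsNoetherian v.toValuationSubring W := isNoetherian_of_le hle
    exact (Submodule.fg_top W).mp (IsNoetherian.noetherian ⊤)
  have hmax : IsLocalRing.maximalIdeal v.toValuationSubring = Ideal.span {π} :=
    hπ.maximalIdeal_eq
  have hπmem : π ∈ IsLocalRing.maximalIdeal v.toValuationSubring := by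
    rw [hmax]; exact Ideal.mem_span_singleton_self π
  have key : W ≤ Submodule.span v.toValuationSubring {D K F (π : F)} ⊔
      IsLocalRing.maximalIdeal v.toValuationSubring • W := by
    refine Submodule.span_le.mpr ?_
    rintro _ ⟨y, rfl⟩
    obtain ⟨c, hc⟩ := hres y
    rw [hmax, Ideal.mem_span_singleton'] at hc
    obtain ⟨z, hz⟩ := hc
    have hy : (y : F) = algebraMap K F c + (z : F) * (π : F) := by
      have h1 := congrArg (Subtype.val) hz
      have h2 : ((z * π : v.toValuationSubring) : F) = (z : F) * (π : F) := rfl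
      have h3 : ((y - algebraMap K v.toValuationSubring c : v.toValuationSubring) : F)
          = (y : F) - algebraMap K F c := rfl
      rw [h2, h3] at h1
      rw [h1]; ring
    show D K F (y : F) ∈ _
    rw [hy, map_add, Derivation.map_algebraMap, zero_add, Derivation.leibniz]
    refine Submodule.add_mem_sup ?_ ?_
    · rw [← coe_smul_eq]
      exact Submodule.smul_mem _ z (Submodule.mem_span_singleton_self _)
    · rw [← coe_smul_eq]
      exact Submodule.smul_mem_smul hπmem (Submodule.subset_span ⟨z, rfl⟩)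
  have hW : W ≤ Submodule.span v.toValuationSubring {D K F (π : F)} :=
    Submodule.le_of_le_smul_of_le_jacobson_bot hWfg
      (IsLocalRing.maximalIdeal_le_jacobson ⊥) key
  have hy : D K F (y : F) ∈ W := Submodule.subset_span ⟨y, rfl⟩
  obtain ⟨a, ha⟩ := Submodule.mem_span_singleton.mp (hW hy)
  exact ⟨a, by rw [← ha, coe_smul_eq]⟩

/-- `dπ` spans `Ω[F⁄K]`. -/
theorem span_singleton_eq_top (hres : ResidueTrivial v) (hfg : BoundedDiff v)
    {π : v.toValuationSubring} (hπ : Irreducible π) :
    Submodule.span F {D K F (π : F)} = ⊤ := by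
  rw [eq_top_iff, ← span_range_derivation K F, Submodule.span_le]
  rintro _ ⟨y, rfl⟩
  rcases v.toValuationSubring.mem_or_inv_mem y with hy | hy
  · obtain ⟨a, ha⟩ := exists_coeff_of_mem v hres hfg hπ ⟨y, hy⟩
    show D K F y ∈ _
    rw [ha]
    exact Submodule.smul_mem _ _ (Submodule.mem_span_singleton_self _)
  · obtain ⟨a, ha⟩ := exists_coeff_of_mem v hres hfg hπ ⟨y⁻¹, hy⟩
    have h2 : D K F y = -y ^ 2 • D K F y⁻¹ := by
      have := Derivation.leibniz_inv (D K F) y⁻¹
      rwa [inv_inv] at this
    show D K F y ∈ _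
    rw [h2]
    have ha' : D K F y⁻¹ = (a : F) • D K F (π : F) := ha
    rw [ha']
    exact Submodule.smul_mem _ _ (Submodule.smul_mem _ _ (Submodule.mem_span_singleton_self _))

/-- The key order computation: `d y = f dπ` with `ord f = ord y - 1` when `ord y ≠ 0`. -/
theorem exists_coeff_ord [CharZero K] (hres : ResidueTrivial v) (hfg : BoundedDiff v)
    {π : v.toValuationSubring} (hπ : Irreducible π) {y : F} (hy : v.ord y ≠ 0) :
    ∃ f : F, f ≠ 0 ∧ D K F y = f • D K F (π : F) ∧ v.ord f = v.ord y - 1 := by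
  have hy0 : y ≠ 0 := by rintro rfl; simp at hy
  obtain ⟨u, hu⟩ := v.exists_unit_mul_zpow hy0 hπ
  obtain ⟨a, ha⟩ := exists_coeff_of_mem v hres hfg hπ (u : v.toValuationSubring)
  set m : ℤ := v.ord y with hm
  have : CharZero F := charZero_of_injective_algebraMap (algebraMap K F).injective
  have hmF : (m : F) ≠ 0 := by exact_mod_cast hy
  have hπ0 : (π : F) ≠ 0 := by
    have := hπ.ne_zero
    simpa [ne_eq, ZeroMemClass.coe_eq_zero] using this
  have hu0 : ((u : v.toValuationSubring) : F) ≠ 0 := by
    simp [ne_eq, ZeroMemClass.coe_eq_zero]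
  have hord_m : v.ord (m : F) = 0 := by
    have h1 : (m : F) = algebraMap K F (m : K) := by simp
    rw [h1]
    exact FF.ord_algebraMap v _
  have hord_u : v.ord ((u : v.toValuationSubring) : F) = 0 := v.ord_coe_unit u
  have hord_π : v.ord (π : F) = 1 := v.ord_coe_irreducible hπ
  have hmu0 : (m : F) * ((u : v.toValuationSubring) : F) ≠ 0 := mul_ne_zero hmF hu0
  have hord_mu : v.ord ((m : F) * ((u : v.toValuationSubring) : F)) = 0 := by
    rw [v.ord_mul hmF hu0, hord_m, hord_u, add_zero]
  set g : F := (m : F) * ((u : v.toValuationSubring) : F) + (π : F) * (a : F) with hg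
  have hg_ord : g ≠ 0 ∧ v.ord g = 0 := by
    rcases eq_or_ne (a : F) 0 with ha0 | ha0
    · have : g = (m : F) * ((u : v.toValuationSubring) : F) := by rw [hg, ha0]; ring
      rw [this]; exact ⟨hmu0, hord_mu⟩
    · have hπa0 : (π : F) * (a : F) ≠ 0 := mul_ne_zero hπ0 ha0
      have hlt : v.ord ((m : F) * ((u : v.toValuationSubring) : F)) < v.ord ((π : F) * (a : F)) := by
        rw [hord_mu, v.ord_mul hπ0 ha0, hord_π]
        have := FF.ord_nonneg_of_mem v a.2
        omega
      have hord := FF.ord_add_eq_of_lt v hlt hmu0 hπa0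
      refine ⟨?_, by rw [hg, hord, hord_mu]⟩
      intro h0
      rw [hg] at h0
      have h1 : v.ord ((m : F) * ((u : v.toValuationSubring) : F)) = v.ord ((π : F) * (a : F)) := by
        have : (m : F) * ((u : v.toValuationSubring) : F) = -((π : F) * (a : F)) :=
          eq_neg_of_add_eq_zero_left h0
        rw [this, FF.ord_neg]
      omega
  refine ⟨(π : F) ^ (m - 1) * g, mul_ne_zero (zpow_ne_zero _ hπ0) hg_ord.1, ?_, ?_⟩
  · rw [hu, Derivation.leibniz, Derivation.leibniz_zpow, ha]
    rw [← Int.cast_smul_eq_zsmul F m, smul_smul, smul_smul, smul_smul, ← add_smul]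
    congr 1
    rw [hg]
    have hz : (π : F) ^ m = (π : F) ^ (m - 1) * (π : F) := by
      rw [← zpow_add_one₀ hπ0]; congr 1; ring
    rw [hz]; ring
  · rw [v.ord_mul (zpow_ne_zero _ hπ0) hg_ord.1, v.ord_zpow, hord_π, hg_ord.2]
    ring

theorem dCoordGenerates (hres : ResidueTrivial v) (hfg : BoundedDiff v) : v.DCoordGenerates := by
  obtain ⟨π₀, hπ₀, h⟩ := dCoord_spec v
  exact ⟨by rw [h]; exact span_singleton_eq_top v hres hfg hπ₀⟩

/-- D2: the order of `dy` is `ord y - 1` whenever `ord y ≠ 0` (characteristic zero). -/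
theorem ordDifferential_D [CharZero K] [Nontrivial Ω[F⁄K]] (hres : ResidueTrivial v)
    (hfg : BoundedDiff v) {y : F} (hy : v.ord y ≠ 0) :
    v.ordDifferential (D K F y) = v.ord y - 1 ∧ v.differentialCoeff (D K F y) ≠ 0 := by
  have := dCoordGenerates v hres hfg
  obtain ⟨π₀, hπ₀, h⟩ := dCoord_spec v
  obtain ⟨f, hf0, hf, hford⟩ := exists_coeff_ord v hres hfg hπ₀ hy
  have hcoeff : v.differentialCoeff (D K F y) = f :=
    v.differentialCoeff_unique (by rw [h]; exact hf)
  refine ⟨?_, by rw [hcoeff]; exact hf0⟩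
  show v.ord (v.differentialCoeff (D K F y)) = _
  rw [hcoeff, hford]

/-- D3: additivity of `ordDifferential` under multiplication by a nonzero function. -/
theorem ordDifferential_smul_D [CharZero K] [Nontrivial Ω[F⁄K]] (hres : ResidueTrivial v)
    (hfg : BoundedDiff v) {c : F} (hc : c ≠ 0) {y : F} (hy : v.ord y ≠ 0) :
    v.ordDifferential (c • D K F y) = v.ord c + (v.ord y - 1) := by
  have := dCoordGenerates v hres hfg
  obtain ⟨h1, h2⟩ := ordDifferential_D v hres hfg hy
  rw [v.ordDifferential_smul hc h2, h1]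

end Fermat.Agent.S24.DiffN
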