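import Mathlib
import Fermat.Agent.S24.DiffN.Core

set_option autoImplicit false

namespace Fermat.Agent.S24.DiffN

open AlgebraicCurve KaehlerDifferential IntermediateField IsDedekindDomain
open scoped IntermediateField.algebraAdjoinAdjoin

variable {K F : Type*} [Field K] [Field F] [Algebra K F] [CharZero K]

/-- If `F` is finite over `K(x)` and `x` vanishes at `v`, the differentials of the elements of
`O_v` lie in a finitely generated `O_v`-module (`O_v` is a localisation of the integral closure
of `K[x]`, which is a finite `K[x]`-module). -/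
theorem boundedDiff_of_finite (v : Place K F) (x : F) [FiniteDimensional K⟮x⟯ F]
    (hxv : 0 < v.ord x) : BoundedDiff v := by
  classical
  have hxO : x ∈ v.toValuationSubring := FF.mem_of_ord_pos v hxv
  have hx0 : x ≠ 0 := by rintro rfl; simp at hxv
  have hAO : ∀ a ∈ Algebra.adjoin K {x}, a ∈ v.toValuationSubring := by
    intro a ha
    induction ha using Algebra.adjoin_induction with
    | mem y hy => rw [Set.mem_singleton_iff.mp hy]; exact hxO
    | algebraMap c => exact v.algebraMap_mem' c
    | add a b _ _ ha hb => exact add_mem ha hb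
    | mul a b _ _ ha hb => exact mul_mem ha hb
  have hPID : IsPrincipalIdealRing (Algebra.adjoin K {x}) := by
    let g : Algebra.adjoin K {x} := ⟨x, Algebra.self_mem_adjoin_singleton K x⟩
    have hsurj : Function.Surjective (Polynomial.aeval (R := K) g) := by
      rintro ⟨a, ha⟩
      have ha' := ha
      rw [Algebra.adjoin_singleton_eq_range_aeval] at ha'
      obtain ⟨p, hp⟩ := ha'
      refine ⟨p, Subtype.ext ?_⟩
      rw [Polynomial.aeval_subalgebra_coe]
      exact hp
    exact IsPrincipalIdealRing.of_surjective (Polynomial.aeval (R := K) g).toRingHom hsurj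
  have hDed : IsDedekindDomain (integralClosure (Algebra.adjoin K {x}) F) :=
    integralClosure.isDedekindDomain (Algebra.adjoin K {x}) K⟮x⟯ F
  have hFrac : IsFractionRing (integralClosure (Algebra.adjoin K {x}) F) F :=
    integralClosure.isFractionRing_of_finite_extension K⟮x⟯ F
  have hFin : Module.Finite (Algebra.adjoin K {x}) (integralClosure (Algebra.adjoin K {x}) F) :=
    IsIntegralClosure.finite (Algebra.adjoin K {x}) K⟮x⟯ F _
  have hBO : ∀ b : integralClosure (Algebra.adjoin K {x}) F, (b : F) ∈ v.toValuationSubring := by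
    intro b
    obtain ⟨p, hpm, hp0⟩ := b.2
    let φ : Algebra.adjoin K {x} →+* v.toValuationSubring :=
      { toFun := fun a => ⟨a.1, hAO a.1 a.2⟩
        map_one' := rfl
        map_mul' := fun _ _ => rfl
        map_zero' := rfl
        map_add' := fun _ _ => rfl }
    have hint' : IsIntegral v.toValuationSubring (b : F) := by
      refine ⟨p.map φ, hpm.map φ, ?_⟩
      rw [Polynomial.eval₂_map]
      exact hp0
    obtain ⟨y, hy⟩ := IsIntegrallyClosed.isIntegral_iff.mp hint'
    rw [← hy]
    exact y.2
  let ψ : integralClosure (Algebra.adjoin K {x}) F →+* v.toValuationSubring :=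
    { toFun := fun b => ⟨b.1, hBO b⟩
      map_one' := rfl
      map_mul' := fun _ _ => rfl
      map_zero' := rfl
      map_add' := fun _ _ => rfl }
  let P : Ideal (integralClosure (Algebra.adjoin K {x}) F) :=
    (IsLocalRing.maximalIdeal v.toValuationSubring).comap ψ
  have hPprime : P.IsPrime := Ideal.comap_isPrime ψ _
  let xB : integralClosure (Algebra.adjoin K {x}) F :=
    ⟨x, (isIntegral_algebraMap :
      IsIntegral (Algebra.adjoin K {x})
        (algebraMap (Algebra.adjoin K {x}) F ⟨x, Algebra.self_mem_adjoin_singleton K x⟩))⟩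
  have hxP : xB ∈ P := FF.mem_maximalIdeal_of_ord_pos v hxv
  have hP0 : P ≠ ⊥ := fun h => by
    rw [h, Ideal.mem_bot] at hxP
    exact hx0 (congrArg Subtype.val hxP)
  let w : HeightOneSpectrum (integralClosure (Algebra.adjoin K {x}) F) := ⟨P, hPprime, hP0⟩
  have hloc : ∀ y : v.toValuationSubring,
      ∃ n d : integralClosure (Algebra.adjoin K {x}) F, d ∉ P ∧ (y : F) * (d : F) = (n : F) := by
    intro y
    by_cases hval : w.valuation F (y : F) ≤ 1
    · obtain ⟨n, d, h⟩ := w.exists_primeCompl_mul_eq_of_integer (y : F) hval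
      exact ⟨n, d, d.2, h⟩
    · exfalso
      rw [not_le] at hval
      have hy0 : (y : F) ≠ 0 := by
        intro h
        rw [h, map_zero] at hval
        exact absurd hval (by simp)
      have hinv : w.valuation F (y : F)⁻¹ ≤ 1 := by
        rw [map_inv₀]
        exact inv_le_one_of_one_le₀ hval.le
      obtain ⟨n, d, h⟩ := w.exists_primeCompl_mul_eq_of_integer (y : F)⁻¹ hinv
      have hd : ψ (d : integralClosure (Algebra.adjoin K {x}) F) ∉
          IsLocalRing.maximalIdeal v.toValuationSubring := d.2
      apply hd
      have hn : n ∈ P := by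
        have hd1 : w.valuation F (algebraMap _ F (d : integralClosure (Algebra.adjoin K {x}) F))
            = 1 := by
          rw [HeightOneSpectrum.valuation_of_algebraMap,
            HeightOneSpectrum.intValuation_eq_one_iff_mem_primeCompl]
          exact d.2
        have hvn : w.valuation F (algebraMap _ F n) < 1 := by
          rw [← h, map_mul, map_inv₀, hd1, mul_one]
          exact inv_lt_one_of_one_lt₀ hval
        exact (HeightOneSpectrum.valuation_lt_one_iff_mem (K := F) w n).mp hvn
      have hn' : ψ n ∈ IsLocalRing.maximalIdeal v.toValuationSubring := hn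
      have heq : ψ (d : integralClosure (Algebra.adjoin K {x}) F) = y * ψ n := by
        apply Subtype.ext
        show ((d : integralClosure (Algebra.adjoin K {x}) F) : F) = (y : F) * (n : F)
        have h' : (y : F)⁻¹ * ((d : integralClosure (Algebra.adjoin K {x}) F) : F) = (n : F) := h
        rw [← h', ← mul_assoc, mul_inv_cancel₀ hy0, one_mul]
      rw [heq]
      exact Ideal.mul_mem_left _ _ hn'
  obtain ⟨t, ht⟩ := (Module.Finite.fg_top :
    (⊤ : Submodule (Algebra.adjoin K {x}) (integralClosure (Algebra.adjoin K {x}) F)).FG)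
  refine ⟨insert (D K F x)
    (t.image fun b : integralClosure (Algebra.adjoin K {x}) F => D K F (b : F)), ?_⟩
  set S : Submodule v.toValuationSubring Ω[F⁄K] :=
    Submodule.span v.toValuationSubring
      ((insert (D K F x)
        (t.image fun b : integralClosure (Algebra.adjoin K {x}) F => D K F (b : F)) :
          Finset Ω[F⁄K]) : Set Ω[F⁄K]) with hS
  have hDx : D K F x ∈ S := Submodule.subset_span (by simp)
  have hsmul : ∀ c : F, c ∈ v.toValuationSubring → ∀ ω ∈ S, c • ω ∈ S := by
    intro c hc ω hω
    have := S.smul_mem (⟨c, hc⟩ : v.toValuationSubring) hω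
    rwa [coe_smul_eq] at this
  have hA : ∀ a ∈ Algebra.adjoin K {x}, D K F a ∈ S := by
    intro a ha
    have ha' := ha
    rw [Algebra.adjoin_singleton_eq_range_aeval] at ha'
    obtain ⟨p, rfl⟩ := ha'
    show D K F (Polynomial.aeval x p) ∈ S
    rw [Derivation.map_aeval]
    refine hsmul _ (hAO _ ?_) _ hDx
    rw [Algebra.adjoin_singleton_eq_range_aeval]
    exact ⟨_, rfl⟩
  have hB : ∀ b : integralClosure (Algebra.adjoin K {x}) F, D K F (b : F) ∈ S := by
    intro b
    have hb : b ∈ Submodule.span (Algebra.adjoin K {x}) (t : Set _) := by rw [ht]; trivial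
    induction hb using Submodule.span_induction with
    | mem b hb =>
      refine Submodule.subset_span ?_
      simp only [Finset.coe_insert, Finset.coe_image, Set.mem_insert_iff, Set.mem_image,
        Finset.mem_coe]
      exact Or.inr ⟨b, hb, rfl⟩
    | zero => simp
    | add b c _ _ hb hc =>
      have : ((b + c : integralClosure (Algebra.adjoin K {x}) F) : F) = (b : F) + (c : F) := rfl
      rw [this, map_add]
      exact add_mem hb hc
    | smul a b _ hb =>
      have : ((a • b : integralClosure (Algebra.adjoin K {x}) F) : F) = (a : F) * (b : F) := rfl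
      rw [this, Derivation.leibniz]
      exact add_mem (hsmul _ (hAO a.1 a.2) _ hb) (hsmul _ (hBO b) _ (hA a.1 a.2))
  intro y
  obtain ⟨n, d, hd, hyd⟩ := hloc y
  have hu : IsUnit (ψ d) := by
    by_contra h
    exact hd ((IsLocalRing.mem_maximalIdeal _).mpr h)
  obtain ⟨e, he⟩ := hu.exists_right_inv
  have hde : (d : F) * (e : F) = 1 := congrArg Subtype.val he
  have hd0 : (d : F) ≠ 0 := left_ne_zero_of_mul_eq_one hde
  have hdinv : (d : F)⁻¹ ∈ v.toValuationSubring := by
    have : (d : F)⁻¹ = (e : F) := (eq_inv_of_mul_eq_one_right hde).symm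
    rw [this]
    exact e.2
  have hy : (y : F) = (n : F) / (d : F) := by
    rw [eq_div_iff hd0]
    exact hyd
  rw [hy, Derivation.leibniz_div]
  exact hsmul _ (pow_mem hdinv 2) _
    (sub_mem (hsmul _ (hBO d) _ (hB n)) (hsmul _ (hBO n) _ (hB d)))

end Fermat.Agent.S24.DiffN
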