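import Mathlib

set_option autoImplicit false

namespace Fermat.Agent.S24.DiffN

open KaehlerDifferential IntermediateField TensorProduct
open scoped IntermediateField.algebraAdjoinAdjoin

variable {K F : Type*} [Field K] [Field F] [Algebra K F] [CharZero K]

/-- G1: if `x` is transcendental over `K` and `F` is finite over `K(x)` (characteristic zero),
then `dx ≠ 0` in `Ω[F⁄K]`. -/
theorem D_ne_zero (x : F) (hx : Transcendental K x) [FiniteDimensional K⟮x⟯ F] :
    D K F x ≠ 0 := by
  classical
  have h1 : Algebra.FormallyEtale (Algebra.adjoin K {x}) K⟮x⟯ :=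
    Algebra.FormallyEtale.of_isLocalization (nonZeroDivisors (Algebra.adjoin K {x}))
  have h2 : Algebra.FormallyEtale K⟮x⟯ F := Algebra.FormallyEtale.of_isSeparable K⟮x⟯ F
  have h3 : Algebra.FormallyEtale (Algebra.adjoin K {x}) F :=
    Algebra.FormallyEtale.comp (Algebra.adjoin K {x}) K⟮x⟯ F
  let e₀ := Polynomial.algEquivOfTranscendental K x hx
  let g : Algebra.adjoin K {x} := ⟨x, Algebra.self_mem_adjoin_singleton K x⟩
  have hcoe : ∀ p : Polynomial K, ((e₀ p : Algebra.adjoin K {x}) : F) = Polynomial.aeval x p := by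
    intro p
    rw [Polynomial.algEquivOfTranscendental_apply, Polynomial.aeval_subalgebra_coe]
  let L : Algebra.adjoin K {x} →ₗ[K] F :=
    (Polynomial.aeval x).toLinearMap ∘ₗ (Polynomial.derivative (R := K)) ∘ₗ e₀.symm.toLinearMap
  have hL : ∀ a : Algebra.adjoin K {x},
      L a = Polynomial.aeval x (Polynomial.derivative (e₀.symm a)) := fun a => rfl
  have hleib : ∀ a b : Algebra.adjoin K {x}, L (a * b) = a • L b + b • L a := by
    intro a b
    have ha : (a : F) = Polynomial.aeval x (e₀.symm a) := by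
      rw [← hcoe, AlgEquiv.apply_symm_apply]
    have hb : (b : F) = Polynomial.aeval x (e₀.symm b) := by
      rw [← hcoe, AlgEquiv.apply_symm_apply]
    rw [hL, hL, hL, map_mul, Polynomial.derivative_mul, map_add, map_mul, map_mul]
    rw [Algebra.smul_def, Algebra.smul_def]
    show _ = (a : F) * _ + (b : F) * _
    rw [ha, hb]
    ring
  let d₀ : Derivation K (Algebra.adjoin K {x}) F := Derivation.mk' L hleib
  have hd₀ : d₀ g = 1 := by
    show L g = 1
    rw [hL]
    have : e₀.symm g = Polynomial.X := by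
      rw [AlgEquiv.symm_apply_eq, Polynomial.algEquivOfTranscendental_apply, Polynomial.aeval_X]
    rw [this, Polynomial.derivative_X, map_one]
  let e := tensorKaehlerEquivOfFormallyEtale K (Algebra.adjoin K {x}) F
  let ℓ : F ⊗[Algebra.adjoin K {x}] Ω[Algebra.adjoin K {x}⁄K] →ₗ[F] F :=
    LinearMap.liftBaseChange F d₀.liftKaehlerDifferential
  intro h0
  have he : e ((1 : F) ⊗ₜ[Algebra.adjoin K {x}] D K (Algebra.adjoin K {x}) g) = 0 := by
    rw [tensorKaehlerEquivOfFormallyEtale_apply, mapBaseChange_tmul, one_smul, map_D]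
    exact h0
  have hz : (1 : F) ⊗ₜ[Algebra.adjoin K {x}] D K (Algebra.adjoin K {x}) g = 0 := by
    apply e.injective
    rw [he, map_zero]
  have := congrArg ℓ hz
  rw [LinearMap.liftBaseChange_tmul, Derivation.liftKaehlerDifferential_comp_D, hd₀, map_zero,
    one_smul] at this
  exact one_ne_zero this

theorem nontrivial_kaehler (x : F) (hx : Transcendental K x) [FiniteDimensional K⟮x⟯ F] :
    Nontrivial Ω[F⁄K] :=
  ⟨⟨D K F x, 0, D_ne_zero x hx⟩⟩

/-- G1 in the shape of the S24 skeleton. -/
theorem exists_differential_ne_zero (x : F) (hx : Transcendental K x)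
    (hfin : FiniteDimensional K⟮x⟯ F) : ∃ ω : Ω[F⁄K], ω ≠ 0 :=
  ⟨D K F x, D_ne_zero x hx⟩

end Fermat.Agent.S24.DiffN
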