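import Mathlib
import Fermat.Agent.S24.DiffN.Core
import Fermat.Agent.S24.DiffN.Bounded
import Fermat.Agent.S24.DiffN.Nontriv
import Fermat.Agent.S24.FF.Residue

set_option autoImplicit false

namespace Fermat.Agent.S24.DiffN

open AlgebraicCurve KaehlerDifferential IntermediateField

variable {K F : Type*} [Field K] [Field F] [Algebra K F]
variable [IsAlgClosed K]

theorem residueTrivial (htr : Algebra.trdeg K F = 1) (v : Place K F) : ResidueTrivial v :=
  fun a => FF.exists_residue_sub_mem htr v a

variable [Algebra.EssFiniteType K F]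

/-- A uniformizer of a place is transcendental and `F` is finite over `K(π)`. -/
theorem exists_uniformizer_data (htr : Algebra.trdeg K F = 1) (v : Place K F) :
    ∃ x : F, v.ord x = 1 ∧ Transcendental K x ∧ Module.Finite K⟮x⟯ F := by
  obtain ⟨π, hπ⟩ := IsDiscreteValuationRing.exists_irreducible v.toValuationSubring
  have hord : v.ord (π : F) = 1 := v.ord_coe_irreducible hπ
  have hnot : (π : F) ∉ Set.range (algebraMap K F) := by
    rintro ⟨c, hc⟩
    rw [← hc, FF.ord_algebraMap] at hord
    exact zero_ne_one hord
  have htrans := FF.transcendental_of_not_mem_range hnot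
  exact ⟨π, hord, htrans, FF.finite_adjoin_simple htr htrans⟩

variable [CharZero K]

theorem boundedDiff (htr : Algebra.trdeg K F = 1) (v : Place K F) : BoundedDiff v := by
  obtain ⟨x, hord, -, hfin⟩ := exists_uniformizer_data htr v
  exact boundedDiff_of_finite v x (by omega)

theorem nontrivial_of_place (htr : Algebra.trdeg K F = 1) (v : Place K F) :
    Nontrivial Ω[F⁄K] := by
  obtain ⟨x, -, htrans, hfin⟩ := exists_uniformizer_data htr v
  exact nontrivial_kaehler x htrans

/-- D1: the chosen `dπ_v` generates `Ω[F⁄K]`. -/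
theorem dCoordGenerates_of_trdeg (htr : Algebra.trdeg K F = 1) (v : Place K F) :
    v.DCoordGenerates :=
  dCoordGenerates v (residueTrivial htr v) (boundedDiff htr v)

/-- D2: `ord_v(dy) = ord_v(y) - 1` whenever `ord_v(y) ≠ 0`. -/
theorem ordDifferential_D_of_trdeg (htr : Algebra.trdeg K F = 1) (v : Place K F) {y : F}
    (hy : v.ord y ≠ 0) :
    v.ordDifferential (D K F y) = v.ord y - 1 ∧ v.differentialCoeff (D K F y) ≠ 0 := by
  have := nontrivial_of_place htr v
  exact ordDifferential_D v (residueTrivial htr v) (boundedDiff htr v) hy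

/-- At a pole of `x`: `ord_v(dx) = ord_v(x) - 1`. -/
theorem ordDifferential_D_of_neg (htr : Algebra.trdeg K F = 1) (v : Place K F) {x : F}
    (hx : v.ord x < 0) : v.ordDifferential (D K F x) = v.ord x - 1 :=
  (ordDifferential_D_of_trdeg htr v (by omega)).1

/-- At a place where `x` takes the value `c`: `ord_v(dx) = ord_v(x - c) - 1`. -/
theorem ordDifferential_D_of_sub_pos (htr : Algebra.trdeg K F = 1) (v : Place K F) (x : F)
    (c : K) (hxc : 0 < v.ord (x - algebraMap K F c)) :
    v.ordDifferential (D K F x) = v.ord (x - algebraMap K F c) - 1 := by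
  have h := (ordDifferential_D_of_trdeg htr v (y := x - algebraMap K F c) (by omega)).1
  rwa [map_sub, Derivation.map_algebraMap, sub_zero] at h

/-- The coefficient of a nonzero differential is nonzero. -/
theorem differentialCoeff_ne_zero (htr : Algebra.trdeg K F = 1) (v : Place K F)
    {ω : Ω[F⁄K]} (hω : ω ≠ 0) : v.differentialCoeff ω ≠ 0 := by
  have := dCoordGenerates_of_trdeg htr v
  intro h
  apply hω
  rw [← v.differentialCoeff_smul_dCoord ω, h, zero_smul]

/-- D3: additivity of `ordDifferential`. -/
theorem ordDifferential_smul_of_ne_zero (htr : Algebra.trdeg K F = 1) (v : Place K F)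
    {c : F} (hc : c ≠ 0) {ω : Ω[F⁄K]} (hω : ω ≠ 0) :
    v.ordDifferential (c • ω) = v.ord c + v.ordDifferential ω := by
  have := dCoordGenerates_of_trdeg htr v
  have := nontrivial_of_place htr v
  exact v.ordDifferential_smul hc (differentialCoeff_ne_zero htr v hω)

/-- `Ω[F⁄K]` is one-dimensional: every differential is a multiple of any nonzero one. -/
theorem exists_eq_smul (htr : Algebra.trdeg K F = 1) (v : Place K F)
    {η : Ω[F⁄K]} (hη : η ≠ 0) (ω : Ω[F⁄K]) : ∃ f : F, ω = f • η := by
  have := dCoordGenerates_of_trdeg htr v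
  have hb := differentialCoeff_ne_zero htr v hη
  refine ⟨v.differentialCoeff ω * (v.differentialCoeff η)⁻¹, ?_⟩
  have h1 : η = v.differentialCoeff η • v.dCoord := (v.differentialCoeff_smul_dCoord η).symm
  have h2 : ω = v.differentialCoeff ω • v.dCoord := (v.differentialCoeff_smul_dCoord ω).symm
  calc ω = v.differentialCoeff ω • v.dCoord := h2
    _ = (v.differentialCoeff ω * (v.differentialCoeff η)⁻¹) •
          (v.differentialCoeff η • v.dCoord) := by
        rw [smul_smul, mul_assoc, inv_mul_cancel₀ hb, mul_one]
    _ = (v.differentialCoeff ω * (v.differentialCoeff η)⁻¹) • η := by rw [← h1]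

end Fermat.Agent.S24.DiffN
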